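import Fermat.Agent.LT.Setup.Level
import Fermat.Agent.LT.H3.Measure
import Fermat.Agent.LT.Lift.QuotientIntegral
import Mathlib.MeasureTheory.Constructions.Pi
import Mathlib.MeasureTheory.Measure.Prod
import Mathlib.MeasureTheory.Measure.Count

/-!
# Topology and invariant measure on `Y`; integrals over the quotient

`yVol` is the product of the invariant measure on `∏ ℍ³` with the counting measure on the finite
cosets; it is preserved by `PGL₂(F)`. `quotIntegral` integrates an invariant function over the
quotient by means of a partition of unity.
-/

set_option autoImplicit false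

noncomputable section

open MeasureTheory
open scoped NumberField

namespace Fermat.Agent.LT

variable {F : Type*} [Field F] [NumberField F]

instance cosetTopology (U : Level F) : TopologicalSpace (GLFin F ⧸ U.toSubgroup) := ⊥

instance cosetDiscrete (U : Level F) : DiscreteTopology (GLFin F ⧸ U.toSubgroup) := ⟨rfl⟩

instance cosetMeasurable (U : Level F) : MeasurableSpace (GLFin F ⧸ U.toSubgroup) := ⊤

instance cosetDiscreteMeasurable (U : Level F) :
    DiscreteMeasurableSpace (GLFin F ⧸ U.toSubgroup) := ⟨fun _ => trivial⟩

instance cosetBorel (U : Level F) : BorelSpace (GLFin F ⧸ U.toSubgroup) :=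
  DiscreteMeasurableSpace.toBorelSpace

/-- The invariant measure on the product of hyperbolic spaces. -/
def infVol (F : Type*) [Field F] [NumberField F] :
    Measure (NumberField.InfinitePlace F → H3) := Measure.pi fun _ => H3.vol

instance infVol_sigmaFinite : SigmaFinite (infVol F) := by unfold infVol; infer_instance

/-- The invariant measure on `Y`. -/
def yVol (U : Level F) : Measure (Y U) := (infVol F).prod Measure.count

instance yVol_sigmaFinite (U : Level F) : SigmaFinite (yVol U) := by unfold yVol; infer_instance

/-- `GL₂(F)` preserves the measure on `∏ ℍ³`. -/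
theorem measurePreserving_infSmul (γ : GL (Fin 2) F) :
    MeasurePreserving (fun P : NumberField.InfinitePlace F → H3 =>
      fun w => glEmb F w γ • P w) (infVol F) (infVol F) := by
  refine ⟨measurable_pi_lambda _ fun w =>
    (H3.measurePreserving_smul (glEmb F w γ)).measurable.comp (measurable_pi_apply w), ?_⟩
  unfold infVol
  have : ∀ w : NumberField.InfinitePlace F,
      SigmaFinite (H3.vol.map fun P => glEmb F w γ • P) := fun w => by
    rw [H3.map_smul_vol]; infer_instance
  rw [Measure.pi_map_pi fun w => (H3.measurePreserving_smul (glEmb F w γ)).measurable.aemeasurable]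
  congr 1
  funext w
  exact H3.map_smul_vol _

/-- `GL₂(F)` preserves `yVol`. -/
theorem measurePreserving_ySmul (U : Level F) (γ : GL (Fin 2) F) :
    MeasurePreserving (fun y : Y U => γ • y) (yVol U) (yVol U) := by
  have hc : MeasurePreserving (fun b : GLFin F ⧸ U.toSubgroup => glIncl F γ • b)
      Measure.count Measure.count := by
    refine ⟨measurable_from_top, ?_⟩
    ext s hs
    rw [Measure.map_apply measurable_from_top hs]
    rw [show (fun b : GLFin F ⧸ U.toSubgroup => glIncl F γ • b) ⁻¹' s =
      (fun b => (glIncl F γ)⁻¹ • b) '' s from by
        ext b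
        simp only [Set.mem_preimage, Set.mem_image]
        exact ⟨fun h => ⟨_, h, inv_smul_smul _ b⟩, fun ⟨x, hx, e⟩ => by
          rw [← e, smul_inv_smul]; exact hx⟩]
    exact Measure.count_injective_image (MulAction.injective _) s
  exact (measurePreserving_infSmul γ).prod hc

/-- `PGL₂(F)` preserves `yVol`. -/
theorem measurePreserving_pglSmul (U : Level F) (c : PGLIndex F) :
    MeasurePreserving (fun y : Y U => c • y) (yVol U) (yVol U) := by
  induction c using QuotientGroup.induction_on with
  | H γ => exact measurePreserving_ySmul U γ

/-- The integral over `PGL₂(F) \ Y` of an invariant function, written with a partition of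
unity. -/
def quotIntegral {U : Level F} (w : PartitionOfUnity U) (f : Y U → ℂ) : ℂ :=
  ∫ y, w.weight y • f y ∂yVol U

/-- A partition of unity in the sense of the lifting argument. -/
theorem PartitionOfUnity.isPartition {U : Level F} (w : PartitionOfUnity U) :
    Lift.IsPartition (PGLIndex F) w.weight :=
  ⟨w.nonneg, w.hasSum_pgl⟩

/-- An automorphic function is `PGL₂(F)`-invariant. -/
theorem IsAutomorphic.pgl {U : Level F} {φ : Y U → ℂ} (h : IsAutomorphic φ) (c : PGLIndex F)
    (y : Y U) : φ (c • y) = φ y := by
  induction c using QuotientGroup.induction_on with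
  | H γ => exact h γ y

end Fermat.Agent.LT

end
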