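import Fermat.Agent.LT.Reduction.Integral
import Fermat.Agent.LT.Space
import Mathlib.GroupTheory.QuotientGroup.Defs

/-!
# Principal levels, `PGL₂(F)` acting on `Y`, countability

The principal congruence condition is stable under products and inverses and gives
`Level.principal`; scalars act trivially on `Y`, so `PGL₂(F)` acts, and it is countable.
-/

set_option autoImplicit false

open scoped NumberField Matrix

namespace Fermat.Agent.LT

variable {F : Type*} [Field F] [NumberField F]

/-- One satisfies every principal congruence. -/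
theorem IsPrincipal.one (N : ℕ) : IsPrincipal F N 1 := fun i j =>
  ⟨0, zero_mem _, 0, zero_mem _, by simp, by simp⟩

/-- The principal congruence condition is stable under inverses. -/
theorem IsPrincipal.inv {N : ℕ} {g : GLFin F} (h : IsPrincipal F N g) : IsPrincipal F N g⁻¹ :=
  fun i j => by
    obtain ⟨a, ha, b, hb, e, e'⟩ := h i j
    exact ⟨b, hb, a, ha, e', by rw [inv_inv]; exact e⟩

/-- A product of matrices congruent to one. -/
theorem congrOne_mul {N : ℕ} {g h : Matrix (Fin 2) (Fin 2) (FinAdele F)}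
    (hg : ∀ i j, ∃ a ∈ integralAdele F,
      g i j = (1 : Matrix (Fin 2) (Fin 2) (FinAdele F)) i j + N * a)
    (hh : ∀ i j, ∃ a ∈ integralAdele F,
      h i j = (1 : Matrix (Fin 2) (Fin 2) (FinAdele F)) i j + N * a) :
    ∀ i j, ∃ a ∈ integralAdele F,
      (g * h) i j = (1 : Matrix (Fin 2) (Fin 2) (FinAdele F)) i j + N * a := by
  choose A hA eA using hg
  choose B hB eB using hh
  intro i j
  refine ⟨A i j + B i j + (N : FinAdele F) * ∑ k, A i k * B k j, ?_, ?_⟩
  · exact add_mem (add_mem (hA i j) (hB i j))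
      (mul_mem (natCast_mem _ _) (sum_mem fun k _ => mul_mem (hA i k) (hB k j)))
  · simp only [Matrix.mul_apply, eA, eB, Fin.sum_univ_two]
    fin_cases i <;> fin_cases j <;> simp [Matrix.one_apply] <;> ring

/-- The congruence for the matrix itself. -/
theorem IsPrincipal.left {N : ℕ} {g : GLFin F} (h : IsPrincipal F N g) (i j : Fin 2) :
    ∃ a ∈ integralAdele F, g.val i j = (1 : Matrix (Fin 2) (Fin 2) (FinAdele F)) i j + N * a := by
  obtain ⟨a, ha, -, -, e, -⟩ := h i j
  exact ⟨a, ha, e⟩

/-- The principal congruence condition is stable under products. -/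
theorem IsPrincipal.mul {N : ℕ} {g h : GLFin F} (hg : IsPrincipal F N g)
    (hh : IsPrincipal F N h) : IsPrincipal F N (g * h) := fun i j => by
  obtain ⟨a, ha, e⟩ := congrOne_mul hg.left hh.left i j
  obtain ⟨b, hb, e'⟩ := congrOne_mul hh.inv.left hg.inv.left i j
  exact ⟨a, ha, b, hb, by rw [Units.val_mul]; exact e, by rw [mul_inv_rev, Units.val_mul]; exact e'⟩

/-- Congruence modulo `N` implies congruence modulo its divisors. -/
theorem IsPrincipal.of_dvd {M N : ℕ} (h : M ∣ N) {g : GLFin F} (hg : IsPrincipal F N g) :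
    IsPrincipal F M g := fun i j => by
  obtain ⟨c, rfl⟩ := h
  obtain ⟨a, ha, b, hb, e, e'⟩ := hg i j
  refine ⟨c * a, mul_mem (natCast_mem _ _) ha, c * b, mul_mem (natCast_mem _ _) hb, ?_, ?_⟩
  · rw [e]; push_cast; ring
  · rw [e']; push_cast; ring

variable (F) in
/-- Scalars times the principal congruence subgroup. -/
noncomputable def principalSubgroup (N : ℕ) : Subgroup (GLFin F) where
  carrier := {g | ∃ (a : (FinAdele F)ˣ) (k : GLFin F), IsPrincipal F N k ∧ g = scalarFin F a * k}
  one_mem' := ⟨1, 1, IsPrincipal.one N, by simp⟩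
  mul_mem' := by
    rintro g h ⟨a, k, hk, rfl⟩ ⟨b, l, hl, rfl⟩
    exact ⟨a * b, k * l, hk.mul hl, by
      rw [map_mul, mul_assoc, ← mul_assoc k, ← scalarFin_comm b k]; simp only [mul_assoc]⟩
  inv_mem' := by
    rintro g ⟨a, k, hk, rfl⟩
    exact ⟨a⁻¹, k⁻¹, hk.inv, by rw [mul_inv_rev, ← map_inv, scalarFin_comm]⟩

variable (F) in
/-- The principal level `N`. -/
noncomputable def Level.principal (N : ℕ) (hN : 0 < N) : Level F where
  toSubgroup := principalSubgroup F N
  scalar_mem a := ⟨a, 1, IsPrincipal.one N, by simp⟩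
  exists_principal := ⟨N, hN, fun g hg => ⟨1, g, hg, by simp⟩⟩
  le_maximal g hg := by
    obtain ⟨a, k, hk, rfl⟩ := hg
    exact ⟨a, k, hk.of_dvd (one_dvd N), rfl⟩

/-- The finite part of `Y` is countable. -/
instance countable_cosets (U : Level F) : Countable (GLFin F ⧸ U.toSubgroup) := by
  obtain ⟨N, hN, hU⟩ := U.exists_principal
  have den : ∀ g : GLFin F, ∃ M : ℕ, 0 < M ∧
      (∀ i j, (M : FinAdele F) * g.val i j ∈ integralAdele F) ∧
      ∀ i j, (M : FinAdele F) * (g⁻¹).val i j ∈ integralAdele F := fun g => by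
    obtain ⟨M, hM, h⟩ := Reduction.exists_denominator (F := F)
      (ι := (Fin 2 × Fin 2) ⊕ (Fin 2 × Fin 2))
      (Sum.elim (fun p => g.val p.1 p.2) fun p => (g⁻¹).val p.1 p.2)
    exact ⟨M, hM, fun i j => h (.inl (i, j)), fun i j => h (.inr (i, j))⟩
  choose den hden hint hint' using den
  rw [← Set.countable_univ_iff]
  refine Set.Countable.mono (s₂ := ⋃ M : ℕ, {c : GLFin F ⧸ U.toSubgroup | den c.out = M})
    (fun c _ => Set.mem_iUnion.mpr ⟨_, rfl⟩) (Set.countable_iUnion fun M => Set.Finite.countable ?_)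
  rcases Nat.eq_zero_or_pos M with rfl | hM
  · exact Set.finite_empty.subset fun c hc => absurd hc (hden _).ne'
  obtain ⟨κ, hκ, cls, hcls⟩ :=
    Reduction.exists_residue (F := F) (M * M * N) (by positivity)
  refine Set.Finite.of_finite_image (Set.toFinite
    ((fun c : GLFin F ⧸ U.toSubgroup => fun p : Fin 2 × Fin 2 =>
      cls ((M : FinAdele F) * c.out.val p.1 p.2)) '' _)) fun c hc d hd hcd => ?_
  have hc' : den c.out = M := hc
  have hd' : den d.out = M := hd
  have hi : ∀ i j, (M : FinAdele F) * c.out.val i j ∈ integralAdele F := hc' ▸ hint c.out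
  have hj : ∀ i j, (M : FinAdele F) * d.out.val i j ∈ integralAdele F := hd' ▸ hint d.out
  have hi' : ∀ i j, (M : FinAdele F) * (c.out⁻¹).val i j ∈ integralAdele F := hc' ▸ hint' c.out
  have hj' : ∀ i j, (M : FinAdele F) * (d.out⁻¹).val i j ∈ integralAdele F := hd' ▸ hint' d.out
  choose z hz ez using fun i j =>
    hcls _ _ (hj i j) (hi i j) (congrFun hcd (i, j)).symm
  have hMu : IsUnit (M : FinAdele F) := by
    rw [← map_natCast (finIncl F)]
    exact (isUnit_iff_ne_zero.mpr (Nat.cast_ne_zero.mpr hM.ne')).map _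
  have hdc : ∀ i j, d.out.val i j = c.out.val i j + ((M * N : ℕ) : FinAdele F) * z i j := by
    intro i j
    refine hMu.mul_left_cancel ?_
    rw [ez]
    push_cast; ring
  rw [← QuotientGroup.out_eq' c, ← QuotientGroup.out_eq' d, QuotientGroup.eq]
  refine hU _ fun i j => ?_
  refine ⟨∑ k, ((M : FinAdele F) * (c.out⁻¹).val i k) * z k j,
    sum_mem fun k _ => mul_mem (hi' i k) (hz k j),
    -(∑ k, ((M : FinAdele F) * (d.out⁻¹).val i k) * z k j),
    neg_mem (sum_mem fun k _ => mul_mem (hj' i k) (hz k j)), ?_, ?_⟩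
  · have h1 : ((c.out⁻¹).val * c.out.val) i j =
        (1 : Matrix (Fin 2) (Fin 2) (FinAdele F)) i j := by
      rw [← Units.val_mul, inv_mul_cancel, Units.val_one]
    simp only [Units.val_mul, Matrix.mul_apply, hdc, Fin.sum_univ_two] at h1 ⊢
    rw [← h1]
    push_cast; ring
  · have h1 : ((d.out⁻¹).val * d.out.val) i j =
        (1 : Matrix (Fin 2) (Fin 2) (FinAdele F)) i j := by
      rw [← Units.val_mul, inv_mul_cancel, Units.val_one]
    simp only [mul_inv_rev, inv_inv, Units.val_mul, Matrix.mul_apply, hdc, Fin.sum_univ_two] at h1 ⊢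
    rw [← h1]
    push_cast; ring

omit [NumberField F] in
/-- Scalars are central. -/
theorem scalarGlobal_comm (a : Fˣ) (γ : GL (Fin 2) F) :
    scalarGlobal F a * γ = γ * scalarGlobal F a := by
  ext : 1
  exact Matrix.scalar_commute (a : F) (fun r => mul_comm _ r) γ.val

instance scalarGlobal_range_normal : (scalarGlobal F).range.Normal := ⟨by
  rintro _ ⟨a, rfl⟩ g
  rw [← scalarGlobal_comm, mul_inv_cancel_right]
  exact ⟨a, rfl⟩⟩

/-- `PGL₂(F)` acts on `Y`. -/
noncomputable instance pglMulAction (U : Level F) : MulAction (PGLIndex F) (Y U) where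
  smul c y := Quotient.liftOn' c (fun γ => γ • y) fun γ δ h => by
    obtain ⟨a, ha⟩ := QuotientGroup.leftRel_apply.mp h
    have : δ = γ * scalarGlobal F a := by rw [ha, mul_inv_cancel_left]
    show γ • y = δ • y
    rw [this, mul_smul, scalarGlobal_smul]
  one_smul y := one_smul (GL (Fin 2) F) y
  mul_smul c d y := by
    induction c using QuotientGroup.induction_on with
    | H γ =>
      induction d using QuotientGroup.induction_on with
      | H δ => exact mul_smul γ δ y

/-- The action of a class is the action of a representative. -/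
theorem pgl_mk_smul (U : Level F) (γ : GL (Fin 2) F) (y : Y U) :
    (QuotientGroup.mk γ : PGLIndex F) • y = γ • y := rfl

/-- The weights of a partition of unity sum to one over `PGL₂(F)`. -/
theorem PartitionOfUnity.hasSum_pgl {U : Level F} (w : PartitionOfUnity U) (y : Y U) :
    HasSum (fun c : PGLIndex F => w.weight (c • y)) 1 := by
  have h := w.hasSum y (fun c => c.out) fun c => QuotientGroup.out_eq' c
  convert h using 3 with c
  conv_lhs => rw [← QuotientGroup.out_eq' c, pgl_mk_smul]

instance countable_pglIndex : Countable (PGLIndex F) := by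
  have : Countable F := (Module.finBasis ℚ F).equivFun.injective.countable
  have : Countable (Matrix (Fin 2) (Fin 2) F) := inferInstanceAs (Countable (Fin 2 → Fin 2 → F))
  have : Countable (GL (Fin 2) F) := Units.val_injective.countable
  exact Quotient.countable

end Fermat.Agent.LT
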