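import Fermat.Agent.LT.Setup.Measure
import Fermat.Agent.LT.HeckeOp
import Fermat.Agent.LT.H3.Kernel
import Fermat.Agent.LT.Whittaker.Defs

/-!
# Radial operators, Hecke operators at good primes, cusp forms

The spherical parameter is zero at every place, so a radial profile `k` acts on a cusp form by
`H3.sph k`. A Hecke operator at a good prime is the double coset of a uniformiser idele congruent
to one modulo the level.
-/

set_option autoImplicit false

noncomputable section

open MeasureTheory
open scoped NumberField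
open NumberField (InfinitePlace)

namespace Fermat.Agent.LT

variable {F : Type*} [Field F] [NumberField F]

variable (F) in
/-- One continuous compactly supported profile at every infinite place. -/
structure RadialKernel where
  /-- The profiles. -/
  profile : InfinitePlace F → ℝ → ℝ
  continuous : ∀ w, Continuous (profile w)
  hasCompactSupport : ∀ w, HasCompactSupport (profile w)

namespace RadialKernel

/-- The product kernel. -/
def weight (k : RadialKernel F) (P Q : InfinitePlace F → H3) : ℝ :=
  ∏ w, k.profile w (H3.cdist (P w) (Q w))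

/-- The radial operator on functions on `Y`. -/
def op {U : Level F} (k : RadialKernel F) (φ : Y U → ℂ) (y : Y U) : ℂ :=
  ∫ Q, k.weight y.1 Q • φ (Q, y.2) ∂infVol F

/-- The value on the spherical function of parameter zero. -/
def scalar (k : RadialKernel F) : ℝ := ∏ w, H3.sph (k.profile w)

end RadialKernel

/-- Eigenfunction of all radial operators with the spherical parameter zero. -/
def IsRadialEigen {U : Level F} (φ : Y U → ℂ) : Prop :=
  ∀ (k : RadialKernel F) (y : Y U), k.op φ y = (k.scalar : ℂ) * φ y

variable (F) in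
/-- The matrix `diag (a, 1)` of an idele. -/
def diagIdele (a : (FinAdele F)ˣ) : GLFin F := dia a

/-- The double coset `U x U`. -/
def doubleSet (U : Level F) (x : GLFin F) : Set (GLFin F) :=
  {g | ∃ u ∈ U.toSubgroup, ∃ v ∈ U.toSubgroup, g = u * x * v}

open Classical in
/-- The operator of the double coset `U x U`: the sum over its left cosets. -/
def doubleOp {U : Level F} (x : GLFin F) (φ : Y U → ℂ) (y : Y U) : ℂ :=
  ∑ᶠ b : GLFin F ⧸ U.toSubgroup,
    if (Quotient.out y.2)⁻¹ * Quotient.out b ∈ doubleSet U x then φ (y.1, b) else 0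

/-- An idele generating `𝔭`, congruent to one modulo `N`. -/
structure IsUniformiserAt (N : ℕ) (𝔭 : Ideal (𝓞 F)) (a : (FinAdele F)ˣ) : Prop where
  integral : (a : FinAdele F) ∈ integralAdele F
  generates : ∀ o : 𝓞 F,
    (∃ b ∈ integralAdele F, finIncl F (o : F) = (a : FinAdele F) * b) ↔ o ∈ 𝔭
  congr : ∃ b ∈ integralAdele F, (a : FinAdele F) = 1 + (N : FinAdele F) * b

/-- `φ` is an eigenfunction of the Hecke operator at `𝔭`, for the level dividing `N`. -/
def IsHeckeEigenAt {U : Level F} (N : ℕ) (φ : Y U → ℂ) (𝔭 : Ideal (𝓞 F)) (c : ℂ) : Prop :=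
  ∀ a : (FinAdele F)ˣ, IsUniformiserAt N 𝔭 a → ∀ y, doubleOp (diagIdele F a) φ y = c * φ y

/-- A cusp form of spherical parameter zero. -/
structure IsSphericalCuspForm {U : Level F} (φ : Y U → ℂ) : Prop where
  cuspEigen : Whittaker.IsCuspEigen φ
  radial : IsRadialEigen φ

/-- Eigen at all primes not dividing `N`, with the given eigenvalues. -/
def IsHeckeEigenSystem {U : Level F} (N : ℕ) (φ : Y U → ℂ) (lam : Ideal (𝓞 F) → ℂ) : Prop :=
  ∀ 𝔭 : Ideal (𝓞 F), 𝔭.IsPrime → 𝔭 ≠ ⊥ → (N : 𝓞 F) ∉ 𝔭 → IsHeckeEigenAt N φ 𝔭 (lam 𝔭)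

end Fermat.Agent.LT

end
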