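import Fermat.Agent.LT.Setup.Level
import Mathlib.RingTheory.Ideal.Operations

/-!
# Levels attached to an ideal of the ring of integers

`Level.ofIdeal F I` consists of the scalar multiples of the elements of `GL₂(Ô)` which are
congruent to one modulo the ideal `I`. It serves at a tamely ramified place of `L / K`, where the
level of the twisted trace is given by the prime above and not by a rational integer.
-/

set_option autoImplicit false

noncomputable section

open scoped NumberField Matrix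

namespace Fermat.Agent.LT

variable {F : Type*} [Field F] [NumberField F]

variable (F) in
/-- `I Ô`, as an additive subgroup of the finite adeles. -/
def idealAdele (I : Ideal (𝓞 F)) : AddSubgroup (FinAdele F) :=
  AddSubgroup.closure
    {x | ∃ o ∈ I, ∃ a ∈ integralAdele F, x = finIncl F (o : F) * a}

/-- `I Ô` is an ideal of the integral adeles. -/
theorem mul_mem_idealAdele {I : Ideal (𝓞 F)} {x a : FinAdele F} (hx : x ∈ idealAdele F I)
    (ha : a ∈ integralAdele F) : x * a ∈ idealAdele F I := by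
  induction hx using AddSubgroup.closure_induction with
  | mem x hx =>
    obtain ⟨o, ho, b, hb, rfl⟩ := hx
    exact AddSubgroup.subset_closure ⟨o, ho, b * a, mul_mem hb ha, mul_assoc _ _ _⟩
  | zero => rw [zero_mul]; exact zero_mem _
  | add x y _ _ ihx ihy => rw [add_mul]; exact add_mem ihx ihy
  | neg x _ ihx =>
    have e : -x * a = -(x * a) := by ring
    exact e ▸ neg_mem ihx

/-- Multiples of an element of `I` lie in `I Ô`. -/
theorem natCast_mul_mem_idealAdele {I : Ideal (𝓞 F)} {N : ℕ} (hN : (N : 𝓞 F) ∈ I)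
    {a : FinAdele F} (ha : a ∈ integralAdele F) : (N : FinAdele F) * a ∈ idealAdele F I :=
  AddSubgroup.subset_closure ⟨N, hN, a, ha, by simp⟩

/-- Congruence to one modulo `I`, for an element of `GL₂(Ô)`. -/
def IsCongrIdeal (I : Ideal (𝓞 F)) (g : GLFin F) : Prop :=
  IsPrincipal F 1 g ∧ ∀ i j,
    g.val i j - (1 : Matrix (Fin 2) (Fin 2) (FinAdele F)) i j ∈ idealAdele F I

/-- The entries of a matrix congruent to one modulo `1` are integral. -/
theorem IsPrincipal.entry_mem {g : GLFin F} (h : IsPrincipal F 1 g) (i j : Fin 2) :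
    g.val i j ∈ integralAdele F := by
  obtain ⟨a, ha, e⟩ := h.left i j
  rw [e, Nat.cast_one, one_mul, Matrix.one_apply]
  exact add_mem (by split <;> simp [zero_mem, one_mem]) ha

/-- Congruence modulo `I` is stable under products. -/
theorem IsCongrIdeal.mul {I : Ideal (𝓞 F)} {g h : GLFin F} (hg : IsCongrIdeal I g)
    (hh : IsCongrIdeal I h) : IsCongrIdeal I (g * h) := by
  refine ⟨hg.1.mul hh.1, fun i j => ?_⟩
  have key : (g * h).val i j - (1 : Matrix (Fin 2) (Fin 2) (FinAdele F)) i j =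
      (∑ k, (g.val i k - (1 : Matrix (Fin 2) (Fin 2) (FinAdele F)) i k) * h.val k j) +
        (h.val i j - (1 : Matrix (Fin 2) (Fin 2) (FinAdele F)) i j) := by
    rw [Units.val_mul]
    simp only [sub_mul, Finset.sum_sub_distrib, ← Matrix.mul_apply, one_mul]
    ring
  rw [key]
  exact add_mem (sum_mem fun k _ => mul_mem_idealAdele (hg.2 i k) (hh.1.entry_mem k j)) (hh.2 i j)

/-- Congruence modulo `I` is stable under inverses. -/
theorem IsCongrIdeal.inv {I : Ideal (𝓞 F)} {g : GLFin F} (hg : IsCongrIdeal I g) :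
    IsCongrIdeal I g⁻¹ := by
  refine ⟨hg.1.inv, fun i j => ?_⟩
  have key : (g⁻¹).val i j - (1 : Matrix (Fin 2) (Fin 2) (FinAdele F)) i j =
      -(∑ k, (g.val i k - (1 : Matrix (Fin 2) (Fin 2) (FinAdele F)) i k) * (g⁻¹).val k j) := by
    simp only [sub_mul, Finset.sum_sub_distrib, ← Matrix.mul_apply, one_mul]
    rw [← Units.val_mul, mul_inv_cancel, Units.val_one, neg_sub]
  rw [key]
  exact neg_mem (sum_mem fun k _ => mul_mem_idealAdele (hg.2 i k) (hg.1.inv.entry_mem k j))

/-- One is congruent to one modulo `I`. -/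
theorem IsCongrIdeal.one (I : Ideal (𝓞 F)) : IsCongrIdeal I (1 : GLFin F) :=
  ⟨IsPrincipal.one 1, fun i j => by simp [zero_mem]⟩

/-- A principal congruence modulo an element of `I` is a congruence modulo `I`. -/
theorem isCongrIdeal_of_isPrincipal {I : Ideal (𝓞 F)} {N : ℕ} (hN : (N : 𝓞 F) ∈ I) {g : GLFin F}
    (hg : IsPrincipal F N g) : IsCongrIdeal I g :=
  ⟨hg.of_dvd (one_dvd N), fun i j => by
    obtain ⟨a, ha, e⟩ := hg.left i j
    rw [e, add_sub_cancel_left]
    exact natCast_mul_mem_idealAdele hN ha⟩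

variable (F) in
/-- The level of an ideal containing a positive integer: scalars times `K(I)`. -/
def Level.ofIdeal (I : Ideal (𝓞 F)) (hI : ∃ N : ℕ, 0 < N ∧ (N : 𝓞 F) ∈ I) : Level F where
  toSubgroup :=
    { carrier := {g | ∃ (a : (FinAdele F)ˣ) (k : GLFin F), IsCongrIdeal I k ∧ g = scalarFin F a * k}
      one_mem' := ⟨1, 1, IsCongrIdeal.one I, by simp⟩
      mul_mem' := by
        rintro g h ⟨a, k, hk, rfl⟩ ⟨b, l, hl, rfl⟩
        exact ⟨a * b, k * l, hk.mul hl, by
          rw [map_mul, mul_assoc, ← mul_assoc k, ← scalarFin_comm b k]; simp only [mul_assoc]⟩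
      inv_mem' := by
        rintro g ⟨a, k, hk, rfl⟩
        exact ⟨a⁻¹, k⁻¹, hk.inv, by rw [mul_inv_rev, ← map_inv, scalarFin_comm]⟩ }
  scalar_mem a := ⟨a, 1, IsCongrIdeal.one I, by simp⟩
  exists_principal := by
    obtain ⟨N, hN, hNI⟩ := hI
    exact ⟨N, hN, fun g hg => ⟨1, g, isCongrIdeal_of_isPrincipal hNI hg, by simp⟩⟩
  le_maximal g hg := by
    obtain ⟨a, k, hk, rfl⟩ := hg
    exact ⟨a, k, hk.1, rfl⟩

/-- Membership in the level of an ideal. -/
theorem mem_ofIdeal {I : Ideal (𝓞 F)} {hI : ∃ N : ℕ, 0 < N ∧ (N : 𝓞 F) ∈ I} {g : GLFin F} :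
    g ∈ (Level.ofIdeal F I hI).toSubgroup ↔
      ∃ (a : (FinAdele F)ˣ) (k : GLFin F), IsCongrIdeal I k ∧ g = scalarFin F a * k :=
  Iff.rfl

end Fermat.Agent.LT

end
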