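import Fermat.Agent.LT.Setup.Operators
import Fermat.Agent.LT.Final.Data
import Fermat.Prelude.Def_GaloisRep_ModThreeCyclotomic
import Mathlib.NumberTheory.Cyclotomic.Basic
import Mathlib.RingTheory.Ideal.Norm.AbsNorm

/-!
# The statements of cubic descent and of the lift to weight one

* `IsSupersingularRep ρ`: a surjective mod `3` representation with the local behaviour of a
  semistable curve with good supersingular reduction at three.
* `HasDescentForm ρ Ψ N`: a cusp form on `ℚ(ζ₃)` with the eigenvalues predicted by `Ψ ∘ ρ`.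
* `DescentStep`, `LiftStep`: the statements of cubic descent and of the theta lift to weight one
  in the proof of the Langlands-Tunnell theorem.
-/

set_option autoImplicit false

noncomputable section

open scoped NumberField

namespace Fermat.Agent.LT

local notation "Γℚ" => (AlgebraicClosure ℚ ≃ₐ[ℚ] AlgebraicClosure ℚ)

/-- The field `ℚ(ζ₃)`. -/
abbrev EisField : Type := CyclotomicField 3 ℚ

/-- The Galois data of a semistable curve with good supersingular reduction at three. -/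
structure IsSupersingularRep (ρ : Γℚ →* GL (Fin 2) (ZMod 3)) : Prop where
  continuous : Continuous ρ
  surjective : Function.Surjective ρ
  det : ∀ σ, Matrix.GeneralLinearGroup.det (ρ σ) =
    WeierstrassCurve.modThreeCyclotomicChar σ
  tame : ∀ q : ℕ, q.Prime → q ≠ 3 → ∀ A : ValuationSubring (AlgebraicClosure ℚ),
    A.LiesOverPrime q → ∀ τ ∈ A.inertiaSubgroupIn ℚ, ρ τ ^ 3 = 1
  decomposition : ∀ A : ValuationSubring (AlgebraicClosure ℚ), A.LiesOverPrime 3 →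
    ∀ σ ∈ A.decompositionSubgroup ℚ, Matrix.GeneralLinearGroup.det (ρ σ) = 1 →
      Final.InQuaternion (ρ σ)
  inertia : ∀ A : ValuationSubring (AlgebraicClosure ℚ), A.LiesOverPrime 3 →
    ∃ τ ∈ A.inertiaSubgroupIn ℚ, orderOf (ρ τ) = 8

/-- A cusp form on `ℚ(ζ₃)`, eigen at all good primes with real eigenvalues,
with eigenvalue `√(N 𝔭) · trace` at the primes `𝔭` of degree `f` over a rational
prime `p` with `Frob_p ^ f` in the quaternion subgroup, that is, at the primes split in the cubic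
field. -/
def HasDescentForm (ρ : Γℚ →* GL (Fin 2) (ZMod 3))
    (Ψ : GL (Fin 2) (ZMod 3) →* GL (Fin 2) (ℤ√(-2))) (N : ℕ) : Prop :=
  (∀ q : ℕ, q.Prime → q ≠ 3 → ¬ q ^ 2 ∣ N) ∧
  ∃ (hN : 0 < N) (ι : ℤ√(-2) →+* ℂ) (φ : Y (Level.principal EisField N hN) → ℂ)
    (lam : Ideal (𝓞 EisField) → ℂ) (T : Finset ℕ),
    IsSphericalCuspForm φ ∧ (∃ y, φ y ≠ 0) ∧ IsHeckeEigenSystem N φ lam ∧
    (∀ 𝔭 : Ideal (𝓞 EisField), 𝔭.IsPrime → 𝔭 ≠ ⊥ → (N : 𝓞 EisField) ∉ 𝔭 →
      (lam 𝔭).im = 0) ∧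
    ∀ p : ℕ, p.Prime → p ∉ T → ¬ p ∣ 3 * N →
      ∀ A : ValuationSubring (AlgebraicClosure ℚ), A.LiesOverPrime p →
        (∀ τ ∈ A.inertiaSubgroupIn ℚ, ρ τ = 1) →
        ∀ σ : Γℚ, A.IsFrobeniusAt σ p →
          ∀ (𝔭 : Ideal (𝓞 EisField)) (f : ℕ), 𝔭.IsPrime → Ideal.absNorm 𝔭 = p ^ f →
            Final.InQuaternion (ρ σ ^ f) →
            lam 𝔭 = (Real.sqrt p : ℂ) ^ f *
              ι ((Ψ (ρ σ ^ f) : GL (Fin 2) (ℤ√(-2))) : Matrix (Fin 2) (Fin 2) (ℤ√(-2))).trace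

/-- Cubic descent of the dihedral theta form. -/
def DescentStep : Prop :=
  ∀ (ρ : Γℚ →* GL (Fin 2) (ZMod 3)), IsSupersingularRep ρ →
    ∀ Ψ : GL (Fin 2) (ZMod 3) →* GL (Fin 2) (ℤ√(-2)),
      (∀ g, Matrix.GeneralLinearGroup.map FLT.ExplicitLift.red (Ψ g) = g) →
      ∃ N, HasDescentForm ρ Ψ N

/-- The theta lift to weight one and the nonvanishing of the periods. -/
def LiftStep : Prop :=
  ∀ (ρ : Γℚ →* GL (Fin 2) (ZMod 3)), IsSupersingularRep ρ →
    ∀ Ψ : GL (Fin 2) (ZMod 3) →* GL (Fin 2) (ℤ√(-2)),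
      (∀ g, Matrix.GeneralLinearGroup.map FLT.ExplicitLift.red (Ψ g) = g) →
      ∀ N, HasDescentForm ρ Ψ N →
        ∃ N', Final.HasSplitWeightOneForm ρ Ψ N' ∧ ∀ q : ℕ, q.Prime → q ≠ 3 → ¬ q ^ 3 ∣ N'

end Fermat.Agent.LT

end
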